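/-
Lib/Unif (architect helper33): complex uniformisation of elliptic curves and analytic Velu.
File `Surj/Inv`: the function `1 / (℘ - x)`.
-/
import Fermat.Agent.Lib.Unif.Basic

set_option autoImplicit false

noncomputable section

namespace Fermat.Agent.Lib.Unif

open Filter Topology

variable (L : PeriodPair)

open Classical in
/-- `1 / (℘ - x)`, extended by `0` at the lattice points. -/
def invSub (x z : ℂ) : ℂ := if z ∈ L.lattice then 0 else (L.weierstrassP z - x)⁻¹

theorem invSub_add_coe (x z : ℂ) (l : L.lattice) : invSub L x (z + l) = invSub L x z := by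
  have h : z + (l : ℂ) ∈ L.lattice ↔ z ∈ L.lattice :=
    L.lattice.toAddSubgroup.add_mem_cancel_right (y := z) l.2
  unfold invSub
  by_cases hz : z ∈ L.lattice
  · rw [if_pos hz, if_pos (h.mpr hz)]
  · rw [if_neg hz, if_neg (fun h' => hz (h.mp h')), L.weierstrassP_add_coe]

/-- off the lattice. -/
theorem analyticAt_invSub_of_notMem {x : ℂ} (hx : ∀ z, z ∉ L.lattice → L.weierstrassP z ≠ x)
    {z : ℂ} (hz : z ∉ L.lattice) : AnalyticAt ℂ (invSub L x) z := by
  have h1 : AnalyticAt ℂ (fun w => (L.weierstrassP w - x)⁻¹) z := by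
    have h2 : AnalyticAt ℂ L.weierstrassP z := L.analyticOnNhd_weierstrassP z hz
    exact (h2.sub analyticAt_const).inv (sub_ne_zero.mpr (hx z hz))
  refine h1.congr ?_
  filter_upwards [L.isClosed_lattice.isOpen_compl.mem_nhds hz] with w hw
  have hw' : w ∉ L.lattice := hw
  simp [invSub, hw']

/-- at the lattice points: `℘ - x` has a pole of order `2`, so the inverse has positive order
(`PeriodPair.order_weierstrassP`, `meromorphicOrderAt_inv`,
`AnalyticAt.of_meromorphicOrderAt_pos`; compare `analyticAt_relation_zero` in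
`Mathlib/Analysis/SpecialFunctions/Elliptic/Weierstrass.lean`). -/
theorem analyticAt_invSub_of_mem (x : ℂ) {z : ℂ} (hz : z ∈ L.lattice) :
    AnalyticAt ℂ (invSub L x) z := by
  classical
  refine AnalyticAt.of_meromorphicOrderAt_pos ?_ (by simp [invSub, hz])
  have h1 : invSub L x =ᶠ[𝓝[≠] z] (L.weierstrassP + fun _ => -x)⁻¹ := by
    have h2 : ∀ᶠ w in 𝓝[≠] z, w ∈ ((L.lattice : Set ℂ) \ {z})ᶜ :=
      mem_nhdsWithin_of_mem_nhds (L.compl_lattice_sdiff_singleton_mem_nhds z)
    filter_upwards [h2, self_mem_nhdsWithin] with w hw hwz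
    have hw' : w ∉ L.lattice := fun h => hw ⟨h, hwz⟩
    simp [invSub, hw', sub_eq_add_neg]
  have e2 : (-2 : WithTop ℤ) = ((-2 : ℤ) : WithTop ℤ) := by norm_num
  have h3 : meromorphicOrderAt (L.weierstrassP + fun _ => -x) z = -2 := by
    rw [meromorphicOrderAt_add_eq_left_of_lt (MeromorphicAt.const _ _), L.order_weierstrassP z hz]
    rw [L.order_weierstrassP z hz, meromorphicOrderAt_const, e2]
    split_ifs
    · exact WithTop.coe_lt_top (-2 : ℤ)
    · exact WithTop.coe_lt_coe.mpr (by norm_num)
  rw [meromorphicOrderAt_congr h1, meromorphicOrderAt_inv, h3, neg_neg]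
  exact zero_lt_two

end Fermat.Agent.Lib.Unif

end
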